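import Fermat.Agent.GR.A.SC.Conj
import Fermat.Agent.S24.LevelOne
import Fermat.Agent.S24.LevelOnePoly
import Fermat.Agent.S24.DegreeAux

set_option autoImplicit false

namespace Fermat.Agent.GR.A.SC

open Fermat.Agent.S24

open UpperHalfPlane Function IntermediateField
open scoped Manifold MatrixGroups

/-- Evaluation at a point, as a ring homomorphism. -/
def degreeEvalAt (τ : ℍ) : Hol →+* ℂ := (Pi.evalRingHom (fun _ : ℍ => ℂ) τ).comp Hol.subtype

@[simp] theorem degreeEvalAt_apply (τ : ℍ) (f : Hol) : degreeEvalAt τ f = (f : ℍ → ℂ) τ := rfl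

theorem degree_eval₂_apply (Q : Polynomial ℂ) (τ : ℍ) :
    ((Polynomial.eval₂ constHol jHol Q : Hol) : ℍ → ℂ) τ = Polynomial.eval (jfun τ) Q := by
  rw [← degreeEvalAt_apply, Polynomial.hom_eval₂]
  have : (degreeEvalAt τ).comp constHol = RingHom.id ℂ := by ext c; rfl
  rw [this]
  rfl

theorem degree_eval₂_injective : Function.Injective (Polynomial.eval₂RingHom constHol jHol) := by
  rw [injective_iff_map_eq_zero]
  intro Q hQ
  apply Polynomial.funext
  intro c
  obtain ⟨τ, rfl⟩ := exists_jfun_eq c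
  rw [← degree_eval₂_apply, Polynomial.eval_zero]
  have : Polynomial.eval₂ constHol jHol Q = 0 := hQ
  rw [this]; rfl

theorem degree_evA_eval₂ (N : ℕ) [NeZero N] (P : Polynomial Kbar) :
    evA N (Polynomial.eval₂ (algebraMap Kbar (A1 N)) (jA N) P) =
      Polynomial.eval₂ constHol jHol (P.map iotaC) := by
  rw [Polynomial.hom_eval₂, Polynomial.eval₂_map, evA_jA]
  congr 1
  ext c : 1
  exact evA_algebraMap N c

theorem transcendental_jA (N : ℕ) [NeZero N] : Transcendental Kbar (jA N) := by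
  rw [transcendental_iff]
  intro p hp
  have h1 : evA N (Polynomial.eval₂ (algebraMap Kbar (A1 N)) (jA N) p) = 0 := by
    rw [← Polynomial.aeval_def, hp, map_zero]
  rw [degree_evA_eval₂] at h1
  have h2 : p.map iotaC = 0 := degree_eval₂_injective (by rw [map_zero]; exact h1)
  exact (Polynomial.map_eq_zero iotaC).1 h2

/-- PIECE D1. -/
theorem transcendental_jF (N : ℕ) [NeZero N] : Transcendental Kbar (jF N) := by
  rw [transcendental_iff]
  intro p hp
  rw [jF, Polynomial.aeval_algHom_apply] at hp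
  have := incl_injective N (hp.trans (map_zero _).symm)
  exact (transcendental_iff.1 (transcendental_jA N)) p this

/-- PIECE D2. Linear disjointness: a family of Laurent series over `ℚ̄` which is linearly
independent over `ℚ̄` stays so over `ℂ`. -/
theorem linearIndependent_coeffMap {ι : Type} (v : ι → LaurentSeries Kbar)
    (hv : LinearIndependent Kbar v) :
    LinearIndependent ℂ (fun i => ModularCurve.coeffMap iotaC (v i)) := by
  classical
  let _ : Algebra Kbar ℂ := iotaC.toAlgebra
  let b := Module.Basis.ofVectorSpace Kbar ℂ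
  rw [linearIndependent_iff'] at hv ⊢
  intro s g hg i hi
  have key : ∀ k, ∀ i ∈ s, b.coord k (g i) = 0 := by
    intro k
    apply hv s (fun i => b.coord k (g i))
    ext n
    have h1 := congrArg (fun x => HahnSeries.coeff x n) hg
    simp only [HahnSeries.coeff_sum, HahnSeries.coeff_smul, ModularCurve.coeffMap_coeff,
      HahnSeries.coeff_zero, smul_eq_mul] at h1 ⊢
    have h2 := congrArg (b.coord k) h1
    rw [map_sum, map_zero] at h2
    rw [← h2]
    apply Finset.sum_congr rfl
    intro i _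
    have : g i * iotaC ((v i).coeff n) = ((v i).coeff n) • g i := by
      rw [Algebra.smul_def, mul_comm]; rfl
    rw [this, map_smul, smul_eq_mul, mul_comm]
  apply b.ext_elem
  intro k
  have := key k i hi
  simpa using this


local notation "𝕢" => Periodic.qParam

theorem degree_periodic_of_T (f : ℍ → ℂ) (h : ∀ τ, f (ModularGroup.T • τ) = f τ) :
    Periodic (f ∘ ofComplex) (((1 : ℕ) : ℝ) : ℂ) := by
  intro w
  by_cases hw : 0 < Complex.im w
  · have hw' : 0 < Complex.im (w + (((1 : ℕ) : ℝ) : ℂ)) := by simpa using hw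
    simp only [comp_apply, ofComplex_apply_of_im_pos hw', ofComplex_apply_of_im_pos hw]
    rw [← h ⟨w, hw⟩]
    congr 1
    rw [UpperHalfPlane.modular_T_smul]
    ext
    simp [add_comm]
  · have hw' : Complex.im (w + (((1 : ℕ) : ℝ) : ℂ)) ≤ 0 := by simpa using hw
    simp only [comp_apply, ofComplex_apply_of_im_nonpos hw',
      ofComplex_apply_of_im_nonpos (not_lt.mp hw)]

theorem degree_mem_MerInf_one (N : ℕ) [NeZero N] (f : ℍ → ℂ) (hf : f ∈ MerInf N)
    (h : ∀ τ, f (ModularGroup.T • τ) = f τ) : f ∈ MerInf 1 := by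
  obtain ⟨h1, -, m, hm⟩ := mem_MerInf.1 hf
  refine mem_MerInf.2 ⟨h1, degree_periodic_of_T f h, m, ?_⟩
  refine Asymptotics.IsBigO.trans (Asymptotics.IsBigO.of_bound 1 ?_) hm
  refine Filter.Eventually.of_forall fun τ => ?_
  rw [one_mul, norm_mul, norm_mul, norm_pow, norm_pow]
  refine mul_le_mul_of_nonneg_left (pow_le_pow_left₀ (norm_nonneg _) ?_ m) (norm_nonneg _)
  rw [Periodic.norm_qParam, Periodic.norm_qParam]
  apply Real.exp_le_exp.2
  have hN : (1 : ℝ) ≤ (N : ℝ) := by exact_mod_cast Nat.one_le_iff_ne_zero.2 (NeZero.ne N)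
  have him : 0 < (τ : ℂ).im := τ.im_pos
  have hpi := Real.pi_pos
  rw [Nat.cast_one, div_one, le_div_iff₀ (by linarith)]
  nlinarith [mul_pos hpi him]

/-- PIECE D3. Every `a ∈ A1` is a root of a monic polynomial of degree `|X|` over `ℂ[j]`. -/
theorem exists_monic_annihilator (N : ℕ) [NeZero N] (a : A1 N) :
    ∃ P : Polynomial (Polynomial ℂ), P.Monic ∧ P.natDegree = Nat.card (Cosets N) ∧
      Polynomial.eval₂ (Polynomial.eval₂RingHom constHol jHol) (evA N a) P = 0 := by
  classical
  let _ := Fintype.ofFinite (Cosets N)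
  let P : Polynomial Hol := ∏ x : Cosets N, (Polynomial.X - Polynomial.C (conjHom N x a))
  have hPmonic : P.Monic := Polynomial.monic_prod_X_sub_C _ _
  have hPdeg : P.natDegree = Nat.card (Cosets N) := by
    rw [Polynomial.natDegree_finsetProd_X_sub_C_eq_card, Finset.card_univ, Nat.card_eq_fintype_card]
  have hPmap : ∀ γ : SL(2, ℤ), P.map (compHom γ⁻¹) = P := by
    intro γ
    simp only [P, Polynomial.map_prod, Polynomial.map_sub, Polynomial.map_X, Polynomial.map_C,
      ← conjHom_smul]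
    exact Equiv.prod_comp (MulAction.toPerm γ)
      (fun x : Cosets N => (Polynomial.X - Polynomial.C (conjHom N x a)))
  have hinv : ∀ (n : ℕ) (γ : SL(2, ℤ)), compHom γ (P.coeff n) = P.coeff n := by
    intro n γ
    have := congrArg (fun Q => Polynomial.coeff Q n) (hPmap γ⁻¹)
    simpa [Polynomial.coeff_map] using this
  let R' : Subring Hol := (MerInf N).comap Hol.subtype
  have hPlift : P ∈ Polynomial.liftsRing R'.subtype := by
    apply Subring.prod_mem
    intro x _
    apply Subring.sub_mem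
    · exact Polynomial.X_mem_lifts _
    · exact Polynomial.C_mem_lifts R'.subtype ⟨conjHom N x a, conjHom_mem_MerInf N x a⟩
  have hmerN : ∀ n, ((P.coeff n : Hol) : ℍ → ℂ) ∈ MerInf N := by
    intro n
    obtain ⟨r, hr⟩ := (Polynomial.lifts_iff_coeff_lifts P).1 hPlift n
    rw [← hr]
    exact r.2
  have hmer1 : ∀ n, ((P.coeff n : Hol) : ℍ → ℂ) ∈ MerInf 1 := by
    intro n
    apply degree_mem_MerInf_one N _ (hmerN n)
    intro τ
    have := congrArg (fun f : Hol => (f : ℍ → ℂ) τ) (hinv n ModularGroup.T)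
    simpa using this
  have hPlift2 : P ∈ Polynomial.lifts (Polynomial.eval₂RingHom constHol jHol) := by
    rw [Polynomial.lifts_iff_coeff_lifts]
    intro n
    obtain ⟨Q, hQ⟩ := exists_polynomial_of_invariant (P.coeff n) (hinv n) (hmer1 n)
    exact ⟨Q, hQ.symm⟩
  obtain ⟨Q, hQ1, hQ2, hQ3⟩ := Polynomial.lifts_and_natDegree_eq_and_monic hPlift2 hPmonic
  refine ⟨Q, hQ3, hQ2.trans hPdeg, ?_⟩
  rw [Polynomial.eval₂_eq_eval_map, hQ1]
  simp only [P, Polynomial.eval_prod, Polynomial.eval_sub, Polynomial.eval_X, Polynomial.eval_C]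
  apply Finset.prod_eq_zero (Finset.mem_univ (QuotientGroup.mk 1 : Cosets N))
  rw [conjHom_mk, inv_one, compHom_one, sub_self]

theorem degree_const_mem_MerInf (c : ℂ) : ((constHol c : Hol) : ℍ → ℂ) ∈ MerInf 1 := by
  apply mem_MerInf_of_hasSum 1 _ (HahnSeries.C c) 0
  intro τ
  convert hasSum_single (f := fun n : ℕ =>
    (HahnSeries.C c : LaurentSeries ℂ).coeff ((n : ℤ) - (0 : ℕ)) * 𝕢 ((1 : ℕ) : ℝ) τ ^ n) 0 ?_ using 1
  · simp
  · intro n hn
    have : ((n : ℤ) - ((0 : ℕ) : ℤ)) ≠ 0 := by simpa using hn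
    rw [HahnSeries.C_apply, HahnSeries.coeff_single_of_ne this, zero_mul]

theorem degree_laurentHom_const (c : ℂ) :
    laurentHom 1 ⟨_, degree_const_mem_MerInf c⟩ = algebraMap ℂ (LaurentSeries ℂ) c := by
  rw [ModularCurve.algebraMap_laurentSeries_eq_single]
  apply laurentHom_eq_of_hasSum 1 _ _ 0
  · intro k hk
    have : k ≠ 0 := by
      intro h; simp [h] at hk
    exact HahnSeries.coeff_single_of_ne this
  · intro τ
    convert hasSum_single (f := fun n : ℕ =>
      (HahnSeries.single 0 c : LaurentSeries ℂ).coeff ((n : ℤ) - (0 : ℕ)) *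
        𝕢 ((1 : ℕ) : ℝ) τ ^ n) 0 ?_ using 1
    · simp
    · intro n hn
      have : ((n : ℤ) - ((0 : ℕ) : ℤ)) ≠ 0 := by simpa using hn
      rw [HahnSeries.coeff_single_of_ne this, zero_mul]

/-- The subring of `Hol` of functions which are `1`-periodic and meromorphic at `i∞`. -/
def degreeR1 : Subring Hol := (MerInf 1).comap Hol.subtype

/-- The `q`-expansion on `degreeR1`. -/
noncomputable def degreeLam : degreeR1 →+* LaurentSeries ℂ :=
  (laurentHom 1).comp ((Hol.subtype.comp degreeR1.subtype).codRestrict (MerInf 1) (fun f => f.2))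

theorem degree_relation_transfer (N : ℕ) [NeZero N] (a : A1 N) (Q : Polynomial (Polynomial ℂ))
    (hQ : Polynomial.eval₂ (Polynomial.eval₂RingHom constHol jHol) (evA N a) Q = 0) :
    Polynomial.eval₂ (Polynomial.eval₂RingHom (algebraMap ℂ (LaurentSeries ℂ))
      (ModularCurve.coeffMap iotaC (jA N : LaurentSeries Kbar)))
      (ModularCurve.coeffMap iotaC (a : LaurentSeries Kbar)) Q = 0 := by
  let evA' : A1 N →+* degreeR1 := (evA N).codRestrict degreeR1 (evA_mem N)
  let constR1 : ℂ →+* degreeR1 := constHol.codRestrict degreeR1 degree_const_mem_MerInf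
  have hΛev : ∀ b : A1 N, degreeLam (evA' b) = ModularCurve.coeffMap iotaC (b : LaurentSeries Kbar) :=
    fun b => laurentHom_evA N b
  have hΛc : ∀ c : ℂ, degreeLam (constR1 c) = algebraMap ℂ (LaurentSeries ℂ) c :=
    fun c => degree_laurentHom_const c
  let f1 : Polynomial ℂ →+* degreeR1 := Polynomial.eval₂RingHom constR1 (evA' (jA N))
  have h1 : degreeR1.subtype.comp f1 = Polynomial.eval₂RingHom constHol jHol := by
    apply Polynomial.ringHom_ext
    · intro c
      simp only [f1, RingHom.comp_apply, Polynomial.coe_eval₂RingHom, Polynomial.eval₂_C]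
      rfl
    · simp only [f1, RingHom.comp_apply, Polynomial.coe_eval₂RingHom, Polynomial.eval₂_X]
      exact evA_jA N
  have h2 : degreeLam.comp f1 = Polynomial.eval₂RingHom (algebraMap ℂ (LaurentSeries ℂ))
      (ModularCurve.coeffMap iotaC (jA N : LaurentSeries Kbar)) := by
    apply Polynomial.ringHom_ext
    · intro c
      simp [f1, hΛc]
    · simp [f1, hΛev]
  have h3 : Polynomial.eval₂ f1 (evA' a) Q = 0 := by
    apply degreeR1.subtype_injective
    rw [Polynomial.hom_eval₂, h1, map_zero]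
    exact hQ
  have h4 := congrArg degreeLam h3
  rw [Polynomial.hom_eval₂, h2, map_zero, hΛev] at h4
  exact h4

theorem degree_module_eq (L : Type) [Field L] :
    (Algebra.toModule : Module L (LaurentSeries L)) = HahnSeries.instModule := by
  apply Module.ext'
  intro c x
  have h1 := @Algebra.smul_def L (LaurentSeries L) _ _ _ c x
  rw [ModularCurve.algebraMap_laurentSeries_eq_single, HahnSeries.single_zero_mul_eq_smul] at h1
  exact h1

theorem degree_linearIndependent_val (N : ℕ) {ι : Type} (v : ι → A1 N)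
    (hv : LinearIndependent Kbar v) :
    LinearIndependent Kbar (fun i => (v i : LaurentSeries Kbar)) := by
  rw [← degree_module_eq]
  let inst : Module Kbar (LaurentSeries Kbar) := Algebra.toModule
  exact hv.map' (A1 N).val.toLinearMap (LinearMap.ker_eq_bot.2 Subtype.val_injective)

/-- PIECE D4. -/
theorem exists_annihilator_Kbar (N : ℕ) [NeZero N] (a : A1 N) :
    ∃ P : Polynomial (Polynomial Kbar), P ≠ 0 ∧ P.natDegree ≤ Nat.card (Cosets N) ∧
      Polynomial.eval₂ (Polynomial.eval₂RingHom (algebraMap Kbar (A1 N)) (jA N)) a P = 0 := by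
  by_contra hcon
  push Not at hcon
  have hK : LinearIndependent Kbar
      (fun i : ℕ × Fin (Nat.card (Cosets N) + 1) => (jA N) ^ i.1 * a ^ (i.2 : ℕ)) := by
    apply degreeAux_linearIndependent_of
    intro P hdeg heval
    by_contra hP
    exact hcon P hP hdeg heval
  have hC := linearIndependent_coeffMap _ (degree_linearIndependent_val N _ hK)
  rw [← degree_module_eq] at hC
  obtain ⟨Q, hQ1, hQ2, hQ3⟩ := exists_monic_annihilator N a
  have e : (fun i : ℕ × Fin (Nat.card (Cosets N) + 1) => ModularCurve.coeffMap iotaC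
      ((jA N ^ i.1 * a ^ (i.2 : ℕ) : A1 N) : LaurentSeries Kbar)) = fun i =>
      (ModularCurve.coeffMap iotaC (jA N : LaurentSeries Kbar)) ^ i.1 *
        (ModularCurve.coeffMap iotaC (a : LaurentSeries Kbar)) ^ (i.2 : ℕ) := by
    funext i; simp
  rw [e] at hC
  exact hQ1.ne_zero (degreeAux_eq_zero_of_linearIndependent _ _ _ hC Q hQ2.le
    (degree_relation_transfer N a Q hQ3))

set_option synthInstance.maxHeartbeats 400000 in
theorem degree_incl_bound (N : ℕ) [NeZero N] (a : A1 N) :
    IsIntegral Kbar⟮jF N⟯ (incl N a) ∧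
      (minpoly Kbar⟮jF N⟯ (incl N a)).natDegree ≤ Nat.card (Cosets N) := by
  obtain ⟨P, hP0, hPdeg, hPev⟩ := exists_annihilator_Kbar N a
  let φ : Polynomial Kbar →+* Kbar⟮jF N⟯ :=
    (Polynomial.aeval (AdjoinSimple.gen Kbar (jF N))).toRingHom
  have hφ : Function.Injective φ := by
    have h1 : Transcendental Kbar (AdjoinSimple.gen Kbar (jF N)) := by
      rw [← transcendental_algebraMap_iff (algebraMap Kbar⟮jF N⟯ (FF N)).injective,
        AdjoinSimple.algebraMap_gen]
      exact transcendental_jF N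
    exact transcendental_iff_injective.1 h1
  have hQ0 : P.map φ ≠ 0 := (Polynomial.map_ne_zero_iff hφ).2 hP0
  have hQdeg : (P.map φ).natDegree ≤ Nat.card (Cosets N) :=
    (Polynomial.natDegree_map_le).trans hPdeg
  have hQev : Polynomial.aeval (incl N a) (P.map φ) = 0 := by
    rw [Polynomial.aeval_def, Polynomial.eval₂_map]
    have h2 : (algebraMap Kbar⟮jF N⟯ (FF N)).comp φ = (incl N : A1 N →+* FF N).comp
        (Polynomial.eval₂RingHom (algebraMap Kbar (A1 N)) (jA N)) := by
      apply Polynomial.ringHom_ext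
      · intro c
        simp [φ]
      · have h4 : φ Polynomial.X = AdjoinSimple.gen Kbar (jF N) := Polynomial.aeval_X _
        rw [RingHom.comp_apply, h4, AdjoinSimple.algebraMap_gen, RingHom.comp_apply,
          Polynomial.coe_eval₂RingHom, Polynomial.eval₂_X]
        rfl
    rw [h2]
    have h3 := Polynomial.hom_eval₂ P (Polynomial.eval₂RingHom (algebraMap Kbar (A1 N)) (jA N))
      (incl N : A1 N →+* FF N) a
    rw [hPev, map_zero] at h3
    exact h3.symm
  exact ⟨isAlgebraic_iff_isIntegral.1 ⟨_, hQ0, hQev⟩,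
    (Polynomial.natDegree_le_of_dvd (minpoly.dvd _ _ hQev) hQ0).trans hQdeg⟩

set_option synthInstance.maxHeartbeats 400000 in
theorem degree_main (N : ℕ) [NeZero N] : FiniteDimensional Kbar⟮jF N⟯ (FF N) ∧
    Module.finrank Kbar⟮jF N⟯ (FF N) ≤ Nat.card (Cosets N) := by
  have : CharZero Kbar⟮jF N⟯ :=
    charZero_of_injective_algebraMap (algebraMap Kbar Kbar⟮jF N⟯).injective
  apply degreeAux_finrank_le (Set.range (incl N)) _ ⟨_, ⟨0, rfl⟩⟩
  · rintro _ ⟨a, rfl⟩ _ ⟨b, rfl⟩ k
    exact ⟨a + (k : A1 N) * b, by simp⟩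
  · rintro _ ⟨a, rfl⟩
    exact (degree_incl_bound N a).1
  · rintro _ ⟨a, rfl⟩
    exact (degree_incl_bound N a).2
  · intro x
    obtain ⟨a, b, -, rfl⟩ := exists_frac N x
    exact ⟨_, ⟨a, rfl⟩, _, ⟨b, rfl⟩, rfl⟩

/-- PIECE D5. -/
instance finiteDimensional_FF (N : ℕ) [NeZero N] : FiniteDimensional Kbar⟮jF N⟯ (FF N) :=
  (degree_main N).1

theorem finrank_FF_le (N : ℕ) [NeZero N] :
    Module.finrank Kbar⟮jF N⟯ (FF N) ≤ Nat.card (Cosets N) :=
  (degree_main N).2

set_option synthInstance.maxHeartbeats 400000 in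
/-- PIECE D6. -/
theorem card_le_finrank_FF (N : ℕ) [NeZero N] :
    Nat.card (Cosets N) ≤ Module.finrank Kbar⟮jF N⟯ (FF N) := by
  let τ : ℍ := UpperHalfPlane.I
  let Ψ : Cosets N → A1 N →+* LaurentSeries ℂ := fun x =>
    (HahnSeries.ofPowerSeries ℤ ℂ).comp ((taylorHom τ).comp (conjHom N x))
  have hΨinj : ∀ x, Function.Injective (Ψ x) := fun x =>
    (HahnSeries.ofPowerSeries_injective).comp ((taylorHom_injective τ).comp (conjHom_injective N x))
  choose φ hφ using fun x => exists_lift N (Ψ x) (hΨinj x)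
  let x0 : Cosets N := QuotientGroup.mk 1
  let _ : Algebra Kbar⟮jF N⟯ (LaurentSeries ℂ) :=
    ((φ x0).comp (algebraMap Kbar⟮jF N⟯ (FF N))).toAlgebra
  have hconj : ∀ x (r : Polynomial Kbar), conjHom N x (Polynomial.aeval (jA N) r) =
      Polynomial.eval₂ (constHol.comp iotaC) jHol r := by
    intro x r
    rw [Polynomial.aeval_def, Polynomial.hom_eval₂, conjHom_jA]
    congr 1
    ext c : 1
    exact conjHom_algebraMap N x c
  have hpoly : ∀ x (r : Polynomial Kbar), φ x (Polynomial.aeval (jF N) r) =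
      φ x0 (Polynomial.aeval (jF N) r) := by
    intro x r
    rw [jF, Polynomial.aeval_algHom_apply, hφ, hφ]
    simp only [Ψ, RingHom.comp_apply, hconj]
  have hagree : ∀ x (z : Kbar⟮jF N⟯), φ x (algebraMap _ _ z) = φ x0 (algebraMap _ _ z) := by
    intro x z
    obtain ⟨r, s, hz⟩ := (mem_adjoin_simple_iff Kbar (z : FF N)).1 z.2
    have : algebraMap Kbar⟮jF N⟯ (FF N) z = Polynomial.aeval (jF N) r / Polynomial.aeval (jF N) s :=
      hz
    rw [this, map_div₀, map_div₀, hpoly, hpoly x s]
  let Φ : Cosets N → (FF N →ₐ[Kbar⟮jF N⟯] LaurentSeries ℂ) := fun x =>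
    { φ x with commutes' := fun z => hagree x z }
  have hΦinj : Function.Injective Φ := by
    intro x y hxy
    apply conjHom_index_injective N
    ext a : 1
    apply taylorHom_injective τ
    apply HahnSeries.ofPowerSeries_injective (Γ := ℤ)
    have h1 : φ x (incl N a) = φ y (incl N a) := congrArg (fun f => f (incl N a)) hxy
    rw [hφ, hφ] at h1
    exact h1
  calc Nat.card (Cosets N) ≤ Nat.card (FF N →ₐ[Kbar⟮jF N⟯] LaurentSeries ℂ) :=
        Nat.card_le_card_of_injective Φ hΦinj
    _ ≤ Module.finrank Kbar⟮jF N⟯ (FF N) := card_algHom_le_finrank _ _ _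

theorem finrank_FF (N : ℕ) [NeZero N] :
    Nat.card (Cosets N) = Module.finrank Kbar⟮jF N⟯ (FF N) :=
  le_antisymm (card_le_finrank_FF N) (finrank_FF_le N)

end Fermat.Agent.GR.A.SC
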