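import Fermat.Agent.S24.JFun
import Fermat.Agent.S24.Comb
import Fermat.Prelude.Thm_ModularCurve_coeffMap_qExpand
import Fermat.Prelude.Def_ModularCurve_X0ModL

set_option autoImplicit false

namespace Fermat.Agent.GR.A.SC

open Fermat.Agent.S24

open UpperHalfPlane Function AlgebraicCurve IntermediateField
open scoped Manifold MatrixGroups

/-- A copy of `ℂ` which only carries its field structure (this hides the many shortcut instances
on `ℂ`, so that the proofs of `S24`, written for `ℚ̄`, go through unchanged). -/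
def Kbar : Type := ℂ

noncomputable instance : Field Kbar := inferInstanceAs (Field ℂ)

instance : IsAlgClosed Kbar := inferInstanceAs (IsAlgClosed ℂ)

instance : CharZero Kbar := inferInstanceAs (CharZero ℂ)

abbrev FF (N : ℕ) : Type := ↥(ModularCurve.modularFunctionFieldFullC Kbar N)

/-- The identity `Kbar = ℂ`. -/
noncomputable def iotaC : Kbar →+* ℂ := RingHom.id ℂ

theorem iotaC_bijective : Function.Bijective iotaC := Function.bijective_id

/-- The `ℂ`-algebra generated by the `j(q^d)`, `d ∣ N`. -/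
noncomputable def A1 (N : ℕ) : Subalgebra Kbar (LaurentSeries Kbar) :=
  Algebra.adjoin Kbar (ModularCurve.divisorExpansionsC Kbar N)

/-- PIECE V1. -/
theorem modularFunctionFieldBar_eq_adjoin (N : ℕ) :
    ModularCurve.modularFunctionFieldFullC Kbar N =
      IntermediateField.adjoin Kbar (ModularCurve.divisorExpansionsC Kbar N) := rfl

theorem A1_le (N : ℕ) : A1 N ≤ (ModularCurve.modularFunctionFieldFullC Kbar N).toSubalgebra := by
  rw [modularFunctionFieldBar_eq_adjoin]
  exact IntermediateField.algebra_adjoin_le_adjoin _ _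

/-- The inclusion of `A1 N` in the function field. -/
noncomputable def incl (N : ℕ) : A1 N →ₐ[Kbar] FF N := Subalgebra.inclusion (A1_le N)

theorem incl_injective (N : ℕ) : Function.Injective (incl N) := Subalgebra.inclusion_injective _

/-- The generator `j(q^d)`. -/
noncomputable def jdA (N d : ℕ) [NeZero d] (hd : d ∣ N) : A1 N :=
  ⟨ModularCurve.qExpand Kbar d (ModularCurve.jqModC Kbar),
    Algebra.subset_adjoin (ModularCurve.mem_divisorExpansionsC Kbar N hd)⟩

noncomputable def jA (N : ℕ) : A1 N :=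
  ⟨ModularCurve.jqModC Kbar, by
    have h := (jdA N 1 (one_dvd N)).2
    simp only [jdA] at h
    rwa [ModularCurve.qExpand_one_apply] at h⟩

/-- `j` as an element of the function field. -/
noncomputable def jF (N : ℕ) : FF N := incl N (jA N)

/-- PIECE V2. Every element of the function field is a fraction of elements of `A1`. -/
theorem exists_frac (N : ℕ) (f : FF N) : ∃ a b : A1 N, b ≠ 0 ∧ f = incl N a / incl N b := by
  have hf : (f : LaurentSeries Kbar) ∈ IntermediateField.adjoin Kbar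
      (ModularCurve.divisorExpansionsC Kbar N) := by
    rw [← modularFunctionFieldBar_eq_adjoin]
    exact f.2
  obtain ⟨r, s, hrs⟩ := (IntermediateField.mem_adjoin_iff Kbar _).mp hf
  have hmem : ∀ r : MvPolynomial (ModularCurve.divisorExpansionsC Kbar N)
      Kbar, MvPolynomial.aeval Subtype.val r ∈ A1 N := by
    intro r
    unfold A1
    rw [Algebra.adjoin_eq_range]
    exact ⟨r, rfl⟩
  by_cases hs : MvPolynomial.aeval Subtype.val s = (0 : LaurentSeries Kbar)
  · refine ⟨0, 1, one_ne_zero, ?_⟩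
    rw [hs, div_zero] at hrs
    rw [map_zero, zero_div]
    exact Subtype.ext hrs
  · refine ⟨⟨_, hmem r⟩, ⟨_, hmem s⟩, fun h => hs (congrArg Subtype.val h), ?_⟩
    exact Subtype.ext hrs

/-- PIECE V3. Injective ring homomorphisms extend to the fraction field. -/
theorem exists_lift (N : ℕ) (Ψ : A1 N →+* LaurentSeries ℂ) (hΨ : Function.Injective Ψ) :
    ∃ φ : FF N →+* LaurentSeries ℂ, ∀ a : A1 N, φ (incl N a) = Ψ a := by
  let _ : Algebra (A1 N) (FF N) := (incl N).toRingHom.toAlgebra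
  have : FaithfulSMul (A1 N) (FF N) :=
    (faithfulSMul_iff_algebraMap_injective _ _).mpr (incl_injective N)
  have : IsFractionRing (A1 N) (FF N) := IsFractionRing.of_field _ _ (fun z => by
    obtain ⟨a, b, -, h⟩ := exists_frac N z
    exact ⟨a, b, h⟩)
  exact ⟨IsFractionRing.lift hΨ, fun a => IsFractionRing.lift_algebraMap hΨ a⟩

theorem Ev.MerInf_le_Hol (h : ℕ) : MerInf h ≤ Hol := fun _ hf => hf.1

theorem Ev.hasSum_const (c : ℂ) (τ : ℍ) :
    HasSum (fun n : ℕ => (HahnSeries.C c : LaurentSeries ℂ).coeff ((n : ℤ) - (0 : ℕ))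
      * Periodic.qParam ((1 : ℕ) : ℝ) τ ^ n) ((fun _ : ℍ => c) τ * Periodic.qParam ((1 : ℕ) : ℝ) τ ^ 0) := by
  convert hasSum_single (0 : ℕ) ?_ using 1
  · simp [HahnSeries.C_apply]
  · intro n hn
    rw [HahnSeries.C_apply, HahnSeries.coeff_single_of_ne (by simpa using hn), zero_mul]

theorem Ev.const_mem_MerInf (c : ℂ) : (fun _ : ℍ => c) ∈ MerInf 1 :=
  mem_MerInf_of_hasSum 1 _ (HahnSeries.C c) 0 (Ev.hasSum_const c)

theorem Ev.laurentHom_const (c : ℂ) :
    laurentHom 1 ⟨fun _ => c, Ev.const_mem_MerInf c⟩ = HahnSeries.C c :=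
  laurentHom_eq_of_hasSum 1 _ _ 0 (fun k hk => by
    rw [HahnSeries.C_apply, HahnSeries.coeff_single_of_ne (by simp at hk; omega)])
    (Ev.hasSum_const c)

theorem Ev.coeffMap_coeffEmb_qExpand (d : ℕ) [NeZero d] :
    ModularCurve.coeffMap iotaC (ModularCurve.qExpand Kbar d (ModularCurve.jqModC Kbar))
      = ModularCurve.qExpand ℂ d (ModularCurve.jqModC ℂ) := by
  rw [ModularCurve.coeffMap_qExpand]
  exact congrArg _ (ModularCurve.map_jqModC (K := Kbar) iotaC)

theorem Ev.coeffMap_algebraMap (c : Kbar) :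
    ModularCurve.coeffMap iotaC (algebraMap Kbar (LaurentSeries Kbar) c) = HahnSeries.C (iotaC c) := by
  rw [ModularCurve.algebraMap_laurentSeries_eq_single, ModularCurve.coeffMap_single,
    HahnSeries.C_apply]

theorem Ev.coeffMap_mem_range (N : ℕ) (a : LaurentSeries Kbar) (ha : a ∈ A1 N) :
    ModularCurve.coeffMap iotaC a ∈ (laurentHom 1).range := by
  unfold A1 at ha
  induction ha using Algebra.adjoin_induction with
  | mem x hx =>
    obtain ⟨d, hd0, -, rfl⟩ := hx
    rw [Ev.coeffMap_coeffEmb_qExpand, ← laurentHom_jdfun]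
    exact ⟨_, rfl⟩
  | algebraMap c =>
    rw [Ev.coeffMap_algebraMap, ← Ev.laurentHom_const]
    exact ⟨_, rfl⟩
  | add x y _ _ h1 h2 =>
    rw [map_add]; exact add_mem h1 h2
  | mul x y _ _ h1 h2 =>
    rw [map_mul]; exact mul_mem h1 h2

/-- PIECE V4. Every element of `A1` is the `q`-expansion of a (unique) holomorphic function. -/
theorem exists_evA (N : ℕ) [NeZero N] :
    ∃ ev : A1 N →+* Hol, ∀ a : A1 N, ∃ h : ((ev a : Hol) : ℍ → ℂ) ∈ MerInf 1,
      laurentHom 1 ⟨_, h⟩ = ModularCurve.coeffMap iotaC (a : LaurentSeries Kbar) := by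
  let e : MerInf 1 ≃+* (laurentHom 1).range :=
    RingEquiv.ofBijective (laurentHom 1).rangeRestrict
      ⟨fun x y hxy => laurentHom_injective 1 (congrArg Subtype.val hxy),
        (laurentHom 1).rangeRestrict_surjective⟩
  let c : A1 N →+* (laurentHom 1).range :=
    ((ModularCurve.coeffMap iotaC).comp (A1 N).val.toRingHom).codRestrict (laurentHom 1).range
      (fun a => Ev.coeffMap_mem_range N a a.2)
  refine ⟨(Subring.inclusion (Ev.MerInf_le_Hol 1)).comp (e.symm.toRingHom.comp c), fun a => ?_⟩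
  refine ⟨(e.symm (c a)).2, ?_⟩
  have h1 : e (e.symm (c a)) = c a := e.apply_symm_apply _
  exact congrArg Subtype.val h1

/-- Evaluation of `q`-series in `A1` as holomorphic functions on `ℍ`. -/
noncomputable def evA (N : ℕ) [NeZero N] : A1 N →+* Hol := (exists_evA N).choose

theorem evA_mem (N : ℕ) [NeZero N] (a : A1 N) : ((evA N a : Hol) : ℍ → ℂ) ∈ MerInf 1 :=
  ((exists_evA N).choose_spec a).choose

theorem laurentHom_evA (N : ℕ) [NeZero N] (a : A1 N) :
    laurentHom 1 ⟨_, evA_mem N a⟩ = ModularCurve.coeffMap iotaC (a : LaurentSeries Kbar) :=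
  ((exists_evA N).choose_spec a).choose_spec

theorem Ev.coeffMap_iotaC_injective : Function.Injective (ModularCurve.coeffMap iotaC) := by
  intro x y h
  ext k
  have := congrArg (fun z => z.coeff k) h
  exact iotaC.injective (by simpa using this)

theorem Ev.evA_eq_of_laurentHom (N : ℕ) [NeZero N] (a : A1 N) (f : ℍ → ℂ) (hf : f ∈ MerInf 1)
    (h : laurentHom 1 ⟨f, hf⟩ = ModularCurve.coeffMap iotaC (a : LaurentSeries Kbar)) :
    ((evA N a : Hol) : ℍ → ℂ) = f := by
  have := laurentHom_injective 1 ((laurentHom_evA N a).trans h.symm)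
  exact congrArg Subtype.val this

/-- PIECE V5. -/
theorem evA_injective (N : ℕ) [NeZero N] : Function.Injective (evA N) := by
  intro a b hab
  have h1 := laurentHom_evA N a
  have h2 := laurentHom_evA N b
  have h3 : (⟨_, evA_mem N a⟩ : MerInf 1) = ⟨_, evA_mem N b⟩ :=
    Subtype.ext (congrArg (fun z : Hol => (z : ℍ → ℂ)) hab)
  rw [h3] at h1
  exact Subtype.ext (Ev.coeffMap_iotaC_injective (h1.symm.trans h2))

theorem evA_algebraMap (N : ℕ) [NeZero N] (c : Kbar) :
    evA N (algebraMap Kbar (A1 N) c) = constHol (iotaC c) := by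
  apply Subtype.ext
  apply Ev.evA_eq_of_laurentHom N _ _ (Ev.const_mem_MerInf (iotaC c))
  rw [Ev.laurentHom_const]
  exact (Ev.coeffMap_algebraMap c).symm

theorem evA_jdA (N d : ℕ) [NeZero N] [NeZero d] (hd : d ∣ N) (τ : ℍ) :
    (evA N (jdA N d hd) : ℍ → ℂ) τ = jdfun d τ := by
  have := Ev.evA_eq_of_laurentHom N (jdA N d hd) _ (jdfun_mem_MerInf d) (by
    rw [laurentHom_jdfun]
    exact (Ev.coeffMap_coeffEmb_qExpand d).symm)
  rw [this]

theorem evA_jA (N : ℕ) [NeZero N] : evA N (jA N) = jHol := by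
  apply Subtype.ext
  apply Ev.evA_eq_of_laurentHom N _ _ jfun_mem_MerInf
  rw [laurentHom_jfun]
  have := Ev.coeffMap_coeffEmb_qExpand 1
  rw [ModularCurve.qExpand_one_apply, ModularCurve.qExpand_one_apply] at this
  exact this.symm

/-- Induction principle for `A1`. -/
theorem A1_induction (N : ℕ) {p : A1 N → Prop}
    (hgen : ∀ (d : ℕ) (_ : NeZero d) (hd : d ∣ N), p (jdA N d hd))
    (hconst : ∀ c : Kbar, p (algebraMap Kbar (A1 N) c))
    (hadd : ∀ a b, p a → p b → p (a + b)) (hmul : ∀ a b, p a → p b → p (a * b)) (a : A1 N) :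
    p a := by
  obtain ⟨a, ha⟩ := a
  have key : ∀ x (hx : x ∈ Algebra.adjoin Kbar
      (ModularCurve.divisorExpansionsC Kbar N)), p ⟨x, hx⟩ := by
    intro x hx
    induction hx using Algebra.adjoin_induction with
    | mem x hx =>
      obtain ⟨d, hd0, hd, rfl⟩ := hx
      exact hgen d hd0 hd
    | algebraMap c => exact hconst c
    | add x y hx hy h1 h2 =>
      have e : (⟨x + y, (A1 N).add_mem hx hy⟩ : A1 N) = (⟨x, hx⟩ : A1 N) + (⟨y, hy⟩ : A1 N) :=
        Subtype.ext (Subalgebra.coe_add (A1 N) ⟨x, hx⟩ ⟨y, hy⟩).symm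
      exact e ▸ hadd _ _ h1 h2
    | mul x y hx hy h1 h2 =>
      have e : (⟨x * y, (A1 N).mul_mem hx hy⟩ : A1 N) = (⟨x, hx⟩ : A1 N) * (⟨y, hy⟩ : A1 N) :=
        Subtype.ext (Subalgebra.coe_mul (A1 N) ⟨x, hx⟩ ⟨y, hy⟩).symm
      exact e ▸ hmul _ _ h1 h2
  exact key a ha

/-- Uniformisation data on the level of `A1`. -/
structure PreUnif (N : ℕ) (c : Kbar) (e : ℤ) (e0 : ℕ) (g : Equiv.Perm (Cosets N)) where
  Ψ : Cosets N → A1 N →+* LaurentSeries ℂ
  inj_each : ∀ i, Function.Injective (Ψ i)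
  map_const : ∀ i a, Ψ i (algebraMap Kbar (A1 N) a) = HahnSeries.C (iotaC a)
  map_j : ∀ i i', Ψ i (jA N) = Ψ i' (jA N)
  inj : Function.Injective Ψ
  e0_pos : 0 < e0
  order_x : ∀ i, (Ψ i (jA N - algebraMap Kbar (A1 N) c)).order = e
  order_perm : ∀ i a, (Ψ (g i) a).order = (Ψ i a).order
  order_dvd : ∀ i (w : ℕ), (g ^ w) i = i → ∀ a, (e0 : ℤ) ∣ (w : ℤ) * (Ψ i a).order

theorem Ev.order_inv {x : LaurentSeries ℂ} (hx : x ≠ 0) : (x⁻¹).order = - x.order := by
  have h1 := HahnSeries.order_mul hx (inv_ne_zero hx)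
  rw [mul_inv_cancel₀ hx, HahnSeries.order_one] at h1
  linarith

theorem Ev.order_div {x y : LaurentSeries ℂ} (hx : x ≠ 0) (hy : y ≠ 0) :
    (x / y).order = x.order - y.order := by
  rw [div_eq_mul_inv, HahnSeries.order_mul hx (inv_ne_zero hy), Ev.order_inv hy]
  ring

/-- common part of V6 and V7 -/
theorem Ev.exists_family {N : ℕ} {c : Kbar} {e : ℤ} {e0 : ℕ} {g : Equiv.Perm (Cosets N)}
    (P : PreUnif N c e e0 g) :
    ∃ φ : Cosets N → FF N →+* LaurentSeries ℂ,
      (∀ i a, φ i (incl N a) = P.Ψ i a) ∧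
      (∀ i a, φ i (algebraMap Kbar (FF N) a) = HahnSeries.C (iotaC a)) ∧
      Function.Injective φ ∧
      (∀ i f, (φ (g i) f).order = (φ i f).order) ∧
      (∀ i (w : ℕ), (g ^ w) i = i → ∀ f, (e0 : ℤ) ∣ (w : ℤ) * (φ i f).order) := by
  choose φ hφ using fun i => exists_lift N (P.Ψ i) (P.inj_each i)
  have hord : ∀ i (a b : A1 N), a ≠ 0 → b ≠ 0 →
      (φ i (incl N a / incl N b)).order = (P.Ψ i a).order - (P.Ψ i b).order := by
    intro i a b ha hb
    rw [map_div₀, hφ, hφ, Ev.order_div ((map_ne_zero_iff _ (P.inj_each i)).mpr ha)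
      ((map_ne_zero_iff _ (P.inj_each i)).mpr hb)]
  refine ⟨φ, hφ, ?_, ?_, ?_, ?_⟩
  · intro i a
    rw [← (incl N).commutes a, hφ, P.map_const]
  · intro i i' h
    apply P.inj
    ext1 a
    rw [← hφ, ← hφ, h]
  · intro i f
    obtain ⟨a, b, hb, rfl⟩ := exists_frac N f
    rcases eq_or_ne a 0 with rfl | ha
    · simp
    · rw [hord _ a b ha hb, hord _ a b ha hb, P.order_perm, P.order_perm]
  · intro i w hw f
    obtain ⟨a, b, hb, rfl⟩ := exists_frac N f
    rcases eq_or_ne a 0 with rfl | ha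
    · simp
    · rw [hord _ a b ha hb, mul_sub]
      exact dvd_sub (P.order_dvd i w hw a) (P.order_dvd i w hw b)

/-- PIECE V6. -/
theorem PreUnif.toUnifData {N : ℕ} {c : Kbar} {e0 : ℕ} {g : Equiv.Perm (Cosets N)}
    (P : PreUnif N c (e0 : ℤ) e0 g) :
    Nonempty (UnifData Kbar (FF N) (Cosets N) (jF N - algebraMap Kbar (FF N) c) e0 g) := by
  obtain ⟨φ, h1, h2, h3, h4, h5⟩ := Ev.exists_family P
  have hx : ∀ i, φ i (jF N - algebraMap Kbar (FF N) c)
      = P.Ψ i (jA N - algebraMap Kbar (A1 N) c) := by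
    intro i
    rw [← h1, map_sub (incl N), (incl N).commutes]
    rfl
  exact ⟨{ φ := φ
           ι := iotaC
           map_const := h2
           map_x := fun i i' => by
            rw [hx, hx, map_sub, map_sub, P.map_j i i', P.map_const, P.map_const]
           inj := h3
           e0_pos := P.e0_pos
           order_x := fun i => by rw [hx, P.order_x]
           order_perm := h4
           order_dvd := h5 }⟩

/-- PIECE V7. -/
theorem PreUnif.toUnifDataInv {N : ℕ} {e0 : ℕ} {g : Equiv.Perm (Cosets N)}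
    (P : PreUnif N 0 (-(e0 : ℤ)) e0 g) :
    Nonempty (UnifData Kbar (FF N) (Cosets N) (jF N)⁻¹ e0 g) := by
  obtain ⟨φ, h1, h2, h3, h4, h5⟩ := Ev.exists_family P
  have hx : ∀ i, φ i (jF N)⁻¹ = (P.Ψ i (jA N))⁻¹ := by
    intro i
    rw [map_inv₀, ← h1]
    rfl
  have hord : ∀ i, (P.Ψ i (jA N)).order = -(e0 : ℤ) := by
    intro i
    have := P.order_x i
    rwa [map_zero, sub_zero] at this
  have hne : ∀ i, P.Ψ i (jA N) ≠ 0 := by
    intro i h0
    have := hord i
    rw [h0, HahnSeries.order_zero] at this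
    have := P.e0_pos
    omega
  exact ⟨{ φ := φ
           ι := iotaC
           map_const := h2
           map_x := fun i i' => by rw [hx, hx, P.map_j i i']
           inj := h3
           e0_pos := P.e0_pos
           order_x := fun i => by rw [hx, Ev.order_inv (hne i), hord, neg_neg]
           order_perm := h4
           order_dvd := h5 }⟩

end Fermat.Agent.GR.A.SC
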